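import Mathlib
import Fermat.Prelude.Def_FLTPrelim_Ramification

/-!
# S13, package G (Minkowski bridge): shared definitions

`FinInertia A M τ`: the automorphism `τ` of the finite Galois subfield `M ⊂ ℚ̄` lies in the
(finite level) inertia group of the prime of `M` cut out by the valuation subring `A` of `ℚ̄`,
stated elementwise: `τ x - x` is a nonunit of `A` for every algebraic integer `x` of `M`.
-/

set_option autoImplicit false

namespace Fermat.Agent.S13.G

/-- Finite-level inertia condition, elementwise. -/
def FinInertia (A : ValuationSubring (AlgebraicClosure ℚ))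
    (M : IntermediateField ℚ (AlgebraicClosure ℚ)) (τ : M ≃ₐ[ℚ] M) : Prop :=
  ∀ x : M, IsIntegral ℤ x →
    ((τ x : M) : AlgebraicClosure ℚ) - (x : AlgebraicClosure ℚ) ∈ A.nonunits

theorem finInertia_one (A : ValuationSubring (AlgebraicClosure ℚ))
    (M : IntermediateField ℚ (AlgebraicClosure ℚ)) : FinInertia A M 1 := by
  intro x _
  simp only [AlgEquiv.one_apply, sub_self]
  rw [ValuationSubring.mem_nonunits_iff]
  simp

end Fermat.Agent.S13.G
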