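import Mathlib
import Fermat.Agent.S13.G.Defs

/-!
# S13, package G, leaf G2 (helper13): the finite-level Minkowski statement

* `h13_finrank_eq_one`: a finite Galois extension `K` of `ℚ` such that for every prime number `q`
  SOME prime of `𝓞 K` containing `q` has trivial inertia group has degree one
  (Mathlib: `NumberField.exists_not_isUnramifiedAt_int_of_isGalois` = Minkowski, and
  `Ideal.card_inertia_eq_ramificationIdxIn`).
* `eq_bot_of_finInertia_trivial`: the same for an intermediate field `M` of `ℚ̄ / ℚ`, the primes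
  being cut out by valuation subrings of `ℚ̄` (`FinInertia`, elementwise).
-/

set_option autoImplicit false

open scoped NumberField Pointwise

namespace Fermat.Agent.S13.G

local notation "Qb" => AlgebraicClosure ℚ

/-- Generic finite-level Minkowski statement: a finite Galois extension `K` of `ℚ` such that for
every prime number `q` some prime of `𝓞 K` above `q` has trivial inertia group is `ℚ`. -/
theorem h13_finrank_eq_one {K : Type*} [Field K] [CharZero K] [inst : Algebra ℚ K]
    [FiniteDimensional ℚ K] [IsGalois ℚ K]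
    (h : ∀ q : ℕ, q.Prime → ∃ P : Ideal (𝓞 K), P.IsPrime ∧ (q : 𝓞 K) ∈ P ∧
      ∀ τ : K ≃ₐ[ℚ] K, (∀ x : 𝓞 K, ∃ y ∈ P, τ (x : K) - (x : K) = (y : K)) → τ = 1) :
    Module.finrank ℚ K = 1 := by
  obtain rfl : inst = DivisionRing.toRatAlgebra := Subsingleton.elim _ _
  have : NumberField K := {}
  by_contra H
  have H1 : 1 < Module.finrank ℚ K := by
    have := Module.finrank_pos (R := ℚ) (M := K)
    omega
  obtain ⟨p, hp, hram⟩ :=
    NumberField.exists_not_isUnramifiedAt_int_of_isGalois (K := K) (𝒪 := 𝓞 K) H1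
  obtain ⟨P, hP, hpP, htriv⟩ := h p hp
  apply hram P hP hpP
  have := (IsIntegralClosure.algebraMap_injective (𝓞 K) ℤ K).isDomain
  have := IsIntegralClosure.isDedekindDomain ℤ ℚ K (𝓞 K)
  have := IsIntegralClosure.isFractionRing_of_finite_extension ℤ ℚ K (𝓞 K)
  have := IsIntegralClosure.finite ℤ ℚ K (𝓞 K)
  have := CharZero.of_module (R := 𝓞 K) K
  let : MulSemiringAction Gal(K/ℚ) (𝓞 K) := IsIntegralClosure.MulSemiringAction ℤ ℚ K (𝓞 K)
  have := IsGaloisGroup.of_isFractionRing Gal(K/ℚ) ℤ (𝓞 K) ℚ K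
  have hin : P.inertia Gal(K/ℚ) = ⊥ := by
    rw [Subgroup.eq_bot_iff_forall]
    intro τ hτ
    apply htriv τ
    intro x
    refine ⟨τ • x - x, hτ x, ?_⟩
    have e : ((τ • x : 𝓞 K) : K) = τ (x : K) :=
      algebraMap_galRestrict_apply ℤ τ x
    rw [← e]
    push_cast
    rfl
  have hcard : Nat.card (P.inertia Gal(K/ℚ)) = 1 := by
    rw [hin]; simp
  have h1 := Ideal.card_inertia_eq_ramificationIdxIn (G := Gal(K/ℚ)) (P.under ℤ) P
  rw [hcard] at h1
  rw [← Ideal.ramificationIdx_eq_one_iff,
    ← Ideal.ramificationIdxIn_eq_ramificationIdx (P.under ℤ) P Gal(K/ℚ)]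
  exact h1.symm

/-- Algebraic integers lie in every valuation subring. -/
theorem h13_mem_of_isIntegral (A : ValuationSubring Qb) {x : Qb} (hx : IsIntegral ℤ x) :
    x ∈ A := by
  have hx' : IsIntegral A x := hx.tower_top
  obtain ⟨y, hy⟩ := IsIntegrallyClosed.isIntegral_iff.mp hx'
  rw [← hy]
  exact y.2

/-- The inclusion of the ring of integers of `M ⊂ ℚ̄` into a valuation subring of `ℚ̄`. -/
noncomputable def h13_incl (A : ValuationSubring Qb) (M : IntermediateField ℚ Qb) : 𝓞 M →+* A where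
  toFun x := ⟨((x : M) : Qb), h13_mem_of_isIntegral A
    ((isIntegral_algebraMap_iff (algebraMap M Qb).injective).mpr x.2)⟩
  map_one' := rfl
  map_mul' _ _ := rfl
  map_zero' := rfl
  map_add' _ _ := rfl

/-- The prime ideal of `𝓞 M` cut out by a valuation subring `A` of `ℚ̄`. -/
noncomputable def h13_primeOf (A : ValuationSubring Qb) (M : IntermediateField ℚ Qb) :
    Ideal (𝓞 M) :=
  (IsLocalRing.maximalIdeal A).comap (h13_incl A M)

instance h13_primeOf_isPrime (A : ValuationSubring Qb) (M : IntermediateField ℚ Qb) :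
    (h13_primeOf A M).IsPrime :=
  Ideal.comap_isPrime _ _

theorem h13_mem_primeOf_iff (A : ValuationSubring Qb) (M : IntermediateField ℚ Qb) (x : 𝓞 M) :
    x ∈ h13_primeOf A M ↔ (((x : M) : Qb)) ∈ A.nonunits := by
  rw [h13_primeOf, Ideal.mem_comap, ← ValuationSubring.coe_mem_nonunits_iff]
  rfl

/-- **Leaf G2.** A finite Galois subfield `M` of `ℚ̄` such that for every prime number `q` there
is a valuation subring `A` of `ℚ̄` over `q` at which the finite-level inertia group of `M` is
trivial, is `ℚ`. -/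
theorem eq_bot_of_finInertia_trivial (M : IntermediateField ℚ Qb) [FiniteDimensional ℚ M]
    [IsGalois ℚ M]
    (h : ∀ q : ℕ, q.Prime → ∃ A : ValuationSubring Qb, A.LiesOverPrime q ∧
      ∀ τ : M ≃ₐ[ℚ] M, FinInertia A M τ → τ = 1) : M = ⊥ := by
  rw [← IntermediateField.finrank_eq_one_iff]
  apply h13_finrank_eq_one
  intro q hq
  obtain ⟨A, hA, hτ⟩ := h q hq
  refine ⟨h13_primeOf A M, inferInstance, ?_, ?_⟩
  · rw [h13_mem_primeOf_iff]
    have : (((q : 𝓞 M) : M) : Qb) = (q : Qb) := by simp
    rw [this]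
    exact hA
  · intro τ hτ'
    apply hτ τ
    intro x hx
    obtain ⟨y, hy, hxy⟩ := hτ' ⟨x, hx⟩
    have hxy' : ((τ x : M) : Qb) - (x : Qb) = ((y : M) : Qb) := by
      have := congrArg (fun z : M => (z : Qb)) hxy
      simpa using this
    rw [hxy']
    exact (h13_mem_primeOf_iff A M y).mp hy

end Fermat.Agent.S13.G
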