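import Mathlib

/-!
# S13, package G, leaf [G3a] (helper18): the Galois correspondence at a normal open subgroup

`Qb := AlgebraicClosure ℚ`, `Γ := Qb ≃ₐ[ℚ] Qb`.

* `fixedField_props` : a normal subgroup `H` of `Γ` containing the fixing subgroup of a
  finite-dimensional intermediate field `L` has a fixed field which is finite and Galois over `ℚ`,
  and `H` is the fixing subgroup of its fixed field (infinite Galois theory, `H` is open hence
  closed).
* `finiteDimensional_adjoin_of_finite` : adjoining finitely many elements of `Qb` to `ℚ` gives a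
  finite-dimensional field.
* `mem_fixingSubgroup_adjoin_iff` : `σ` fixes `ℚ(S)` pointwise iff it fixes `S` pointwise.
-/

set_option autoImplicit false
set_option linter.style.haveILetI false

namespace Fermat.Agent.S13.G

/-- `ℚ̄ / ℚ` is algebraic. -/
theorem h18_isAlgebraic_rat : Algebra.IsAlgebraic ℚ (AlgebraicClosure ℚ) :=
  AlgebraicClosure.isAlgebraic ℚ

/-- `ℚ̄ / ℚ` is Galois. -/
theorem h18_isGalois_rat : IsGalois ℚ (AlgebraicClosure ℚ) := by
  haveI := h18_isAlgebraic_rat
  haveI : IsAlgClosure ℚ (AlgebraicClosure ℚ) :=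
    (inferInstance :
      @IsAlgClosure ℚ (AlgebraicClosure ℚ) _ _ (AlgebraicClosure.instAlgebra ℚ) _)
  haveI : Normal ℚ (AlgebraicClosure ℚ) := IsAlgClosure.normal ℚ (AlgebraicClosure ℚ)
  exact IsGalois.mk

/-- A subgroup of `Γ` containing the fixing subgroup of a finite-dimensional intermediate field
is open. -/
theorem h18_isOpen_of_fixingSubgroup_le
    (H : Subgroup ((AlgebraicClosure ℚ) ≃ₐ[ℚ] (AlgebraicClosure ℚ)))
    (L : IntermediateField ℚ (AlgebraicClosure ℚ)) [FiniteDimensional ℚ L]
    (hL : L.fixingSubgroup ≤ H) :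
    IsOpen (H : Set ((AlgebraicClosure ℚ) ≃ₐ[ℚ] (AlgebraicClosure ℚ))) :=
  Subgroup.isOpen_mono hL (IntermediateField.fixingSubgroup_isOpen L)

/-- A subgroup of `Γ` containing the fixing subgroup of a finite-dimensional intermediate field
is closed. -/
theorem h18_isClosed_of_fixingSubgroup_le
    (H : Subgroup ((AlgebraicClosure ℚ) ≃ₐ[ℚ] (AlgebraicClosure ℚ)))
    (L : IntermediateField ℚ (AlgebraicClosure ℚ)) [FiniteDimensional ℚ L]
    (hL : L.fixingSubgroup ≤ H) :
    IsClosed (H : Set ((AlgebraicClosure ℚ) ≃ₐ[ℚ] (AlgebraicClosure ℚ))) :=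
  Subgroup.isClosed_of_isOpen H (h18_isOpen_of_fixingSubgroup_le H L hL)

/-- The fixed field of a subgroup containing `L.fixingSubgroup` is contained in `L`. -/
theorem h18_fixedField_le
    (H : Subgroup ((AlgebraicClosure ℚ) ≃ₐ[ℚ] (AlgebraicClosure ℚ)))
    (L : IntermediateField ℚ (AlgebraicClosure ℚ))
    (hL : L.fixingSubgroup ≤ H) :
    IntermediateField.fixedField H ≤ L := by
  haveI := h18_isGalois_rat
  have h := IntermediateField.fixedField_antitone hL
  rwa [InfiniteGalois.fixedField_fixingSubgroup L] at h

/-- **[G3a]** Galois correspondence at a normal subgroup containing a finite-level fixing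
subgroup: its fixed field is finite Galois over `ℚ`, and the subgroup is the fixing subgroup of
its fixed field. -/
theorem fixedField_props
    (H : Subgroup ((AlgebraicClosure ℚ) ≃ₐ[ℚ] (AlgebraicClosure ℚ))) [H.Normal]
    (L : IntermediateField ℚ (AlgebraicClosure ℚ)) [FiniteDimensional ℚ L]
    (hL : L.fixingSubgroup ≤ H) :
    FiniteDimensional ℚ (IntermediateField.fixedField H) ∧
      IsGalois ℚ (IntermediateField.fixedField H) ∧
      (IntermediateField.fixedField H).fixingSubgroup = H := by
  haveI := h18_isGalois_rat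
  have hclosed := h18_isClosed_of_fixingSubgroup_le H L hL
  have hfix : (IntermediateField.fixedField H).fixingSubgroup = H :=
    InfiniteGalois.fixingSubgroup_fixedField ⟨H, hclosed⟩
  have hle := h18_fixedField_le H L hL
  have hfin : FiniteDimensional ℚ (IntermediateField.fixedField H) := by
    let _ : Algebra (IntermediateField.fixedField H) L :=
      RingHom.toAlgebra (IntermediateField.inclusion hle)
    haveI : IsScalarTower ℚ (IntermediateField.fixedField H) L :=
      IsScalarTower.of_algebraMap_eq (fun _ => rfl)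
    exact FiniteDimensional.left ℚ (IntermediateField.fixedField H) L
  have hnorm : (IntermediateField.fixedField H).fixingSubgroup.Normal := by
    rw [hfix]
    infer_instance
  have hgal : IsGalois ℚ (IntermediateField.fixedField H) :=
    (InfiniteGalois.normal_iff_isGalois (IntermediateField.fixedField H)).mp hnorm
  exact ⟨hfin, hgal, hfix⟩

/-- Adjoining finitely many elements of `ℚ̄` to `ℚ` gives a finite-dimensional field. -/
theorem finiteDimensional_adjoin_of_finite (S : Set (AlgebraicClosure ℚ)) (hS : S.Finite) :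
    FiniteDimensional ℚ (IntermediateField.adjoin ℚ S) := by
  haveI := h18_isAlgebraic_rat
  haveI : Finite S := hS
  exact IntermediateField.finiteDimensional_adjoin
    (fun x _ => (Algebra.IsAlgebraic.isAlgebraic x).isIntegral)

/-- `σ` fixes `ℚ(S)` pointwise iff it fixes `S` pointwise. -/
theorem mem_fixingSubgroup_adjoin_iff (S : Set (AlgebraicClosure ℚ))
    (σ : (AlgebraicClosure ℚ) ≃ₐ[ℚ] (AlgebraicClosure ℚ)) :
    σ ∈ (IntermediateField.adjoin ℚ S).fixingSubgroup ↔ ∀ x ∈ S, σ x = x := by
  rw [IntermediateField.mem_fixingSubgroup_iff]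
  constructor
  · intro h x hx
    exact h x (IntermediateField.subset_adjoin ℚ S hx)
  · intro h
    have hle : IntermediateField.adjoin ℚ S ≤
        IntermediateField.fixedField (Subgroup.zpowers σ) := by
      rw [IntermediateField.adjoin_le_iff]
      intro x hx
      rw [SetLike.mem_coe, IntermediateField.mem_fixedField_iff]
      intro f hf
      obtain ⟨n, rfl⟩ := Subgroup.mem_zpowers_iff.mp hf
      have hfix : σ ∈ MulAction.stabilizer ((AlgebraicClosure ℚ) ≃ₐ[ℚ] (AlgebraicClosure ℚ)) x :=
        MulAction.mem_stabilizer_iff.mpr (h x hx)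
      have := (MulAction.stabilizer _ x).zpow_mem hfix n
      exact MulAction.mem_stabilizer_iff.mp this
    intro x hx
    have := hle hx
    rw [IntermediateField.mem_fixedField_iff] at this
    exact this σ (Subgroup.mem_zpowers σ)

end Fermat.Agent.S13.G
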