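import Mathlib
import Fermat.Agent.S54.Frobenius
import Fermat.Agent.S13.G.Defs

/-!
# S13, package G, leaf G1: lifting finite-level inertia to the absolute inertia group

Let `A` be a valuation subring of `ℚ̄` over a prime `q`, and let `M ⊂ ℚ̄` be a finite Galois
extension of `ℚ`.  Every `τ ∈ Gal(M/ℚ)` in the (finite-level) inertia group of the prime of `M`
cut out by `A` is the restriction of an element of `A.inertiaSubgroupIn ℚ`.

The proof applies Mathlib's profinite invariant theory (`Mathlib.RingTheory.Invariant.Profinite`)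
to the closed normal subgroup `H = Gal(ℚ̄/M)` acting on the ring `𝔹` of all algebraic integers.
-/

set_option autoImplicit false
set_option linter.style.haveILetI false

namespace Fermat.Agent.S13.G

open scoped Pointwise
open Fermat.Agent.S54

noncomputable section

local notation "Qb" => AlgebraicClosure ℚ
local notation "Γ" => (AlgebraicClosure ℚ ≃ₐ[ℚ] AlgebraicClosure ℚ)
local notation "𝔹" => (integralClosure ℤ (AlgebraicClosure ℚ))


/-! ### Bridge: trivial action on `𝔹 ⧸ 𝔓` implies membership in the inertia subgroup -/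

theorem h27_residue_incl_smul (A : ValuationSubring Qb) (g : Γ)
    (hg : ∀ b : 𝔹, g • b - b ∈ primeOf A) (b : 𝔹) :
    IsLocalRing.residue A (incl A (g • b)) = IsLocalRing.residue A (incl A b) := by
  have h2 : incl A (g • b - b) ∈ IsLocalRing.maximalIdeal A := hg b
  rw [map_sub, ← IsLocalRing.residue_eq_zero_iff, map_sub, sub_eq_zero] at h2
  exact h2

theorem h27_mem_inertiaSubgroupIn_of_stabilizer (A : ValuationSubring Qb) (q : ℕ) (hq : q.Prime)
    (hA : A.LiesOverPrime q) (g : Γ) (hgs : g ∈ MulAction.stabilizer Γ (primeOf A))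
    (hg : ∀ b : 𝔹, g • b - b ∈ primeOf A) :
    g ∈ A.inertiaSubgroupIn ℚ := by
  have hD : g ∈ A.decompositionSubgroup ℚ :=
    mem_decompositionSubgroup_of_mem_stabilizer A q hq hA g hgs
  refine Subgroup.mem_map.mpr ⟨⟨g, hD⟩, ?_, rfl⟩
  rw [ValuationSubring.inertiaSubgroup, MonoidHom.mem_ker]
  ext xbar
  obtain ⟨x, rfl⟩ := IsLocalRing.residue_surjective xbar
  change (⟨g, hD⟩ : A.decompositionSubgroup ℚ) • IsLocalRing.residue A x = IsLocalRing.residue A x
  rw [← IsLocalRing.ResidueField.residue_smul]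
  obtain ⟨b, s, hs, hxs⟩ := exists_mul_eq A q hq hA x x.2
  set gD : A.decompositionSubgroup ℚ := ⟨g, hD⟩ with hgD
  have h1 : x * incl A s = incl A b := Subtype.ext hxs
  have h2 : (gD • x) * incl A (g • s) = incl A (g • b) := by
    apply Subtype.ext
    have := congrArg g hxs
    rw [map_mul] at this
    exact this
  have h3 := congrArg (IsLocalRing.residue A) h2
  rw [map_mul, h27_residue_incl_smul A g hg, h27_residue_incl_smul A g hg, ← h1, map_mul] at h3
  have hs' : IsLocalRing.residue A (incl A s) ≠ 0 := by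
    rw [Ne, IsLocalRing.residue_eq_zero_iff]
    exact hs
  exact mul_right_cancel₀ hs' h3


theorem h27_compactSpace_subgroup (H : Subgroup Γ) (hH : IsClosed (H : Set Γ)) :
    CompactSpace H := by
  haveI := compactSpace_gal
  exact isCompact_iff_compactSpace.mp hH.isCompact

theorem h27_totallyDisconnectedSpace_subgroup (H : Subgroup Γ) :
    TotallyDisconnectedSpace H := by
  haveI := totallyDisconnectedSpace_gal
  infer_instance

theorem h27_continuousSMul_subgroup (H : Subgroup Γ) :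
    @ContinuousSMul H 𝔹 _ _ ⊥ := by
  letI : TopologicalSpace 𝔹 := ⊥
  haveI : DiscreteTopology 𝔹 := ⟨rfl⟩
  haveI := continuousSMul_gal
  constructor
  have h1 : Continuous fun p : Γ × 𝔹 => p.1 • p.2 := continuous_smul
  have h2 : Continuous fun p : H × 𝔹 => ((p.1 : Γ), p.2) :=
    (continuous_subtype_val.comp continuous_fst).prodMk continuous_snd
  exact h1.comp h2

theorem h27_smulCommClass (H : Subgroup Γ) :
    SMulCommClass H (FixedPoints.subalgebra ℤ 𝔹 H) 𝔹 :=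
  ⟨fun g a b => by
    change g • ((a : 𝔹) * b) = (a : 𝔹) * g • b
    rw [smul_mul', a.2 g]⟩

theorem h27_isInvariant (H : Subgroup Γ) :
    Algebra.IsInvariant (FixedPoints.subalgebra ℤ 𝔹 H) 𝔹 H :=
  ⟨fun b hb => ⟨⟨b, hb⟩, rfl⟩⟩

/-- Conjugates of `H`-fixed elements are `H`-fixed (for normal `H`). -/
theorem h27_smul_fixed (H : Subgroup Γ) [hN : H.Normal] (g : Γ) (b : 𝔹)
    (hb : ∀ h : H, h • b = b) (h : H) : h • (g • b) = g • b := by
  have hmem : g⁻¹ * (h : Γ) * g ∈ H := by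
    have := hN.conj_mem (h : Γ) h.2 g⁻¹
    simpa using this
  have h2 : (g⁻¹ * (h : Γ) * g) • b = b := hb ⟨_, hmem⟩
  calc h • (g • b) = (h : Γ) • (g • b) := rfl
    _ = g • ((g⁻¹ * (h : Γ) * g) • b) := by
      simp only [mul_smul, smul_inv_smul]
    _ = g • b := by rw [h2]

theorem h27_exists_inertia_mul_mem (H : Subgroup Γ) [hN : H.Normal] (hH : IsClosed (H : Set Γ))
    (A : ValuationSubring Qb) (q : ℕ) (hq : q.Prime) (hA : A.LiesOverPrime q) (σ₀ : Γ)
    (hσ₀ : ∀ b : 𝔹, (∀ h : H, h • b = b) → σ₀ • b - b ∈ primeOf A) :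
    ∃ σ ∈ A.inertiaSubgroupIn ℚ, σ⁻¹ * σ₀ ∈ H := by
  letI : TopologicalSpace 𝔹 := ⊥
  haveI : DiscreteTopology 𝔹 := ⟨rfl⟩
  haveI := h27_compactSpace_subgroup H hH
  haveI := h27_totallyDisconnectedSpace_subgroup H
  haveI := h27_continuousSMul_subgroup H
  haveI := h27_smulCommClass H
  haveI := h27_isInvariant H
  set Q := primeOf A with hQ
  have hunder : (σ₀ • Q).under (FixedPoints.subalgebra ℤ 𝔹 H) =
      Q.under (FixedPoints.subalgebra ℤ 𝔹 H) := by
    ext b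
    rw [Ideal.under_def, Ideal.under_def, Ideal.mem_comap, Ideal.mem_comap,
      Ideal.mem_pointwise_smul_iff_inv_smul_mem]
    have hb' := h27_smul_fixed H σ₀⁻¹ b.1 b.2
    have h1 := hσ₀ (σ₀⁻¹ • b.1) hb'
    rw [smul_inv_smul] at h1
    change σ₀⁻¹ • (b : 𝔹) ∈ Q ↔ (b : 𝔹) ∈ Q
    constructor
    · intro h
      have := Q.add_mem h1 h
      simpa using this
    · intro h
      have := Q.sub_mem h h1
      simpa using this
  obtain ⟨g, hg⟩ := Algebra.IsInvariant.exists_smul_of_under_eq_of_profinite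
    (A := FixedPoints.subalgebra ℤ 𝔹 H) (G := H) (σ₀ • Q) Q hunder
  -- `σ₁ := g σ₀` stabilises `Q`
  set σ₁ : Γ := (g : Γ) * σ₀ with hσ₁
  have hσ₁Q : σ₁ • Q = Q := by
    rw [hσ₁, mul_smul]
    exact hg.symm
  -- `σ₁` acts trivially on the image of the invariants
  have hσ₁fix : ∀ b : 𝔹, (∀ h : H, h • b = b) → σ₁ • b - b ∈ Q := by
    intro b hb
    have h1 : σ₁ • b = σ₀ • b := by
      rw [hσ₁, mul_smul]
      exact h27_smul_fixed H σ₀ b hb g
    rw [h1]
    exact hσ₀ b hb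
  -- the induced automorphism of `𝔹 ⧸ Q` over the invariants
  let p : Ideal (FixedPoints.subalgebra ℤ 𝔹 H) := Q.under (FixedPoints.subalgebra ℤ 𝔹 H)
  let f : (𝔹 ⧸ Q) ≃+* (𝔹 ⧸ Q) :=
    Ideal.quotientEquiv Q Q (MulSemiringAction.toRingEquiv Γ 𝔹 σ₁) hσ₁Q.symm
  have hf : ∀ b : 𝔹, f (Ideal.Quotient.mk Q b) = Ideal.Quotient.mk Q (σ₁ • b) := fun b => rfl
  let φ : (𝔹 ⧸ Q) ≃ₐ[(FixedPoints.subalgebra ℤ 𝔹 H) ⧸ p] (𝔹 ⧸ Q) :=
    AlgEquiv.ofRingEquiv (f := f) (by
      intro x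
      obtain ⟨b, rfl⟩ := Ideal.Quotient.mk_surjective x
      rw [Ideal.Quotient.algebraMap_mk_of_liesOver, hf, Ideal.Quotient.eq]
      exact hσ₁fix _ b.2)
  obtain ⟨h', hh'⟩ := Ideal.Quotient.stabilizerHom_surjective_of_profinite (G := H) p Q φ
  -- `h'` and `σ₁` induce the same automorphism of `𝔹 ⧸ Q`
  have hcmp : ∀ b : 𝔹, ((h' : H) : Γ) • b - σ₁ • b ∈ Q := by
    intro b
    have h1 := DFunLike.congr_fun hh' (Ideal.Quotient.mk Q b)
    have h2 : Ideal.Quotient.mk Q (((h' : H) : Γ) • b) = Ideal.Quotient.mk Q (σ₁ • b) := h1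
    rwa [Ideal.Quotient.eq] at h2
  have hh'Q : ((h' : H) : Γ) • Q = Q := h'.2
  refine ⟨((h' : H) : Γ)⁻¹ * σ₁, ?_, ?_⟩
  · apply h27_mem_inertiaSubgroupIn_of_stabilizer A q hq hA
    · rw [MulAction.mem_stabilizer_iff, mul_smul, hσ₁Q, inv_smul_eq_iff, hh'Q]
    · intro b
      have h1 : (((h' : H) : Γ)⁻¹ * σ₁) • b - b =
          ((h' : H) : Γ)⁻¹ • (-(((h' : H) : Γ) • b - σ₁ • b)) := by
        rw [mul_smul, smul_neg, smul_sub, inv_smul_smul]
        ring
      rw [h1]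
      have h2 : -(((h' : H) : Γ) • b - σ₁ • b) ∈ Q := Q.neg_mem (hcmp b)
      have h3 : ((h' : H) : Γ)⁻¹ • (-(((h' : H) : Γ) • b - σ₁ • b)) ∈ ((h' : H) : Γ)⁻¹ • Q :=
        Ideal.smul_mem_pointwise_smul_iff.mpr h2
      rwa [inv_smul_eq_iff.mpr hh'Q.symm] at h3
  · have h1 : (((h' : H) : Γ)⁻¹ * σ₁)⁻¹ * σ₀ = σ₀⁻¹ * ((g : Γ)⁻¹ * ((h' : H) : Γ)) * σ₀⁻¹⁻¹ := by
      rw [hσ₁]
      group
    rw [h1]
    exact hN.conj_mem _ (H.mul_mem (H.inv_mem g.2) (h' : H).2) σ₀⁻¹

/-- **Leaf G1**: lift of a finite-level inertia element to the absolute inertia group. -/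
theorem exists_inertia_lift (A : ValuationSubring Qb) (q : ℕ) (hq : q.Prime)
    (hA : A.LiesOverPrime q)
    (M : IntermediateField ℚ Qb) [FiniteDimensional ℚ M] [IsGalois ℚ M] (τ : M ≃ₐ[ℚ] M)
    (hτ : FinInertia A M τ) :
    ∃ σ : Γ, σ ∈ A.inertiaSubgroupIn ℚ ∧ ∀ x : M, σ (x : Qb) = ((τ x : M) : Qb) := by
  haveI := isGalois_rat
  haveI hN : M.fixingSubgroup.Normal := (InfiniteGalois.normal_iff_isGalois M).mpr ‹IsGalois ℚ M›
  have hcl : IsClosed (M.fixingSubgroup : Set Γ) := InfiniteGalois.fixingSubgroup_isClosed M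
  obtain ⟨σ₀, hσ₀⟩ := AlgEquiv.restrictNormalHom_surjective Qb τ
  have hσ₀' : ∀ x : M, σ₀ (x : Qb) = ((τ x : M) : Qb) := by
    intro x
    rw [← hσ₀]
    exact (AlgEquiv.restrictNormal_commutes σ₀ M x).symm
  have hfix : ∀ b : 𝔹, (∀ h : M.fixingSubgroup, h • b = b) → σ₀ • b - b ∈ primeOf A := by
    intro b hb
    have hbM : (b : Qb) ∈ M := by
      rw [← InfiniteGalois.fixedField_fixingSubgroup M, IntermediateField.mem_fixedField_iff]
      intro f hf
      exact congrArg Subtype.val (hb ⟨f, hf⟩)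
    have hint : IsIntegral ℤ (⟨(b : Qb), hbM⟩ : M) := by
      have h1 : IsIntegral ℤ (algebraMap M Qb ⟨(b : Qb), hbM⟩) := b.2
      exact (isIntegral_algebraMap_iff (algebraMap M Qb).injective).mp h1
    have h2 := hτ ⟨(b : Qb), hbM⟩ hint
    rw [← hσ₀' ⟨(b : Qb), hbM⟩] at h2
    rw [mem_primeOf_iff]
    exact h2
  obtain ⟨σ, hσI, hσH⟩ := h27_exists_inertia_mul_mem M.fixingSubgroup hcl A q hq hA σ₀ hfix
  refine ⟨σ, hσI, fun x => ?_⟩
  have h1 := (IntermediateField.mem_fixingSubgroup_iff M _).mp hσH (x : Qb) x.2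
  rw [AlgEquiv.mul_apply] at h1
  have h2 := congrArg σ h1
  rw [← AlgEquiv.mul_apply, mul_inv_cancel, AlgEquiv.one_apply] at h2
  rw [← hσ₀' x, h2]

end
end Fermat.Agent.S13.G
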