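import Fermat.Agent.S13.G.H12_Glue
import Fermat.Agent.S13.G.H27_Lift
import Fermat.Agent.S13.G.H13_Minkowski
import Fermat.Agent.S13.G.H18_FixedField
import Fermat.Agent.S13.Asm.H11_Interfaces

/-!
# S13, package G: the Minkowski bridge, assembled (helper27, hedge of `G/Main.lean`)

A normal subgroup of `Gal(ℚ̄/ℚ)` which contains `Gal(ℚ̄/L)` for a finite `L/ℚ` and, for every
prime `q`, the inertia group of ONE valuation subring of `ℚ̄` over `q`, is the whole group.
Assembled from the landed leaves G1 (`exists_inertia_lift`), G2 (`eq_bot_of_finInertia_trivial`),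
G3a (`fixedField_props`) via helper12's conditional glue.
-/

set_option autoImplicit false

namespace Fermat.Agent.S13.G

local notation "Qb" => AlgebraicClosure ℚ
local notation "Γ" => (AlgebraicClosure ℚ ≃ₐ[ℚ] AlgebraicClosure ℚ)

/-- Deliverable (G), strong form: one valuation subring per prime suffices. -/
theorem h27_eq_top_of_exists_inertia_le (H : Subgroup Γ) [H.Normal] (L : IntermediateField ℚ Qb)
    [FiniteDimensional ℚ L] (hL : L.fixingSubgroup ≤ H)
    (hI : ∀ q : ℕ, q.Prime → ∃ A : ValuationSubring Qb, A.LiesOverPrime q ∧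
      A.inertiaSubgroupIn ℚ ≤ H) : H = ⊤ :=
  h12_eq_top_of_exists_inertia_le_of
    (fun A q hq hA M _ _ τ hτ => exists_inertia_lift A q hq hA M τ hτ)
    (fun M _ _ h => eq_bot_of_finInertia_trivial M h)
    (fun H _ L _ hL => fixedField_props H L hL) H L hL hI

/-- Deliverable (G), lead's original form: all valuation subrings over all primes. -/
theorem h27_eq_top_of_inertia_le (H : Subgroup Γ) [H.Normal] (L : IntermediateField ℚ Qb)
    [FiniteDimensional ℚ L] (hL : L.fixingSubgroup ≤ H)
    (hI : ∀ q : ℕ, q.Prime → ∀ A : ValuationSubring Qb, A.LiesOverPrime q →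
      A.inertiaSubgroupIn ℚ ≤ H) : H = ⊤ :=
  h27_eq_top_of_exists_inertia_le H L hL (fun q hq => by
    obtain ⟨A, hA⟩ := Fermat.Agent.S54.exists_liesOverPrime q hq
    exact ⟨A, hA, hI q hq A hA⟩)

/-- The assembly interface `StGex`. -/
theorem h27_stGex : Fermat.Agent.S13.Asm.StGex :=
  fun H hH L hL hLH hI => @h27_eq_top_of_exists_inertia_le H hH L hL hLH hI

/-- The assembly interface `StG`. -/
theorem h27_stG : Fermat.Agent.S13.Asm.StG :=
  fun H hH L hL hLH hI => @h27_eq_top_of_inertia_le H hH L hL hLH hI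

end Fermat.Agent.S13.G
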