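import Mathlib
import Fermat.Prelude.Def_FLTPrelim_Ramification
import Fermat.Agent.S54.Frobenius

/-!
# S13, package G: the bridge lemma (helper12)

An element of `Gal(ℚ̄/ℚ)` which stabilises the prime `primeOf A` of the ring of algebraic
integers and acts trivially on its residue ring lies in the inertia subgroup of the valuation
subring `A`.
-/

set_option autoImplicit false
set_option linter.style.haveILetI false

namespace Fermat.Agent.S13.G

open Fermat.Agent.S54
open scoped Pointwise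

local notation "Qb" => AlgebraicClosure ℚ
local notation "Γ" => (AlgebraicClosure ℚ ≃ₐ[ℚ] AlgebraicClosure ℚ)
local notation "𝔹" => (integralClosure ℤ (AlgebraicClosure ℚ))

/-- Generic converse of "inertia acts trivially on the residue field". -/
theorem h12_mem_inertiaSubgroupIn_of_forall {K L : Type*} [Field K] [Field L] [Algebra K L]
    (A : ValuationSubring L) (σ : L ≃ₐ[K] L) (hD : σ ∈ A.decompositionSubgroup K)
    (h : ∀ x ∈ A, σ x - x ∈ A.nonunits) : σ ∈ A.inertiaSubgroupIn K := by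
  refine ⟨⟨σ, hD⟩, ?_, rfl⟩
  change (⟨σ, hD⟩ : A.decompositionSubgroup K) ∈ A.inertiaSubgroup K
  rw [ValuationSubring.inertiaSubgroup, MonoidHom.mem_ker]
  ext xbar
  obtain ⟨x, rfl⟩ := IsLocalRing.residue_surjective xbar
  change (⟨σ, hD⟩ : A.decompositionSubgroup K) • IsLocalRing.residue A x = IsLocalRing.residue A x
  rw [← IsLocalRing.ResidueField.residue_smul]
  rw [← sub_eq_zero, ← map_sub, IsLocalRing.residue_eq_zero_iff]
  rw [← ValuationSubring.coe_mem_nonunits_iff]
  exact h x x.2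

/-- The bridge lemma. -/
theorem mem_inertiaSubgroupIn_of_stabilizer (A : ValuationSubring Qb) (q : ℕ) (hq : q.Prime)
    (hA : A.LiesOverPrime q) (σ : Γ) (hs : σ ∈ MulAction.stabilizer Γ (primeOf A))
    (ht : ∀ b : 𝔹, σ • b - b ∈ primeOf A) : σ ∈ A.inertiaSubgroupIn ℚ := by
  have hD := mem_decompositionSubgroup_of_mem_stabilizer A q hq hA σ hs
  refine h12_mem_inertiaSubgroupIn_of_forall A σ hD fun x hx => ?_
  obtain ⟨b, s, hs', hxs⟩ := exists_mul_eq A q hq hA x hx
  -- `x * s = b`, `s` a unit of `A`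
  have hsu : (s : Qb) ∉ A.nonunits := fun h => hs' ((mem_primeOf_iff A s).mpr h)
  have hσs : σ • s ∉ primeOf A := smul_not_mem_primeOf A σ hs hs'
  have hσsu : ((σ • s : 𝔹) : Qb) ∉ A.nonunits := fun h => hσs ((mem_primeOf_iff A _).mpr h)
  have hσsA : ((σ • s : 𝔹) : Qb) ∈ A := integralClosure_le A _
  have hb : ((σ • b - b : 𝔹) : Qb) ∈ A.nonunits := (mem_primeOf_iff A _).mp (ht b)
  have hs2 : ((σ • s - s : 𝔹) : Qb) ∈ A.nonunits := (mem_primeOf_iff A _).mp (ht s)
  -- `(σ x - x) * σ s = (σ b - b) - x * (σ s - s)`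
  have hkey : (σ x - x) * ((σ • s : 𝔹) : Qb) =
      ((σ • b - b : 𝔹) : Qb) - x * ((σ • s - s : 𝔹) : Qb) := by
    have h1 : σ x * ((σ • s : 𝔹) : Qb) = ((σ • b : 𝔹) : Qb) := by
      have := congrArg σ hxs
      rw [map_mul] at this
      exact this
    have h2 : ((σ • b - b : 𝔹) : Qb) = ((σ • b : 𝔹) : Qb) - (b : Qb) := rfl
    have h3 : ((σ • s - s : 𝔹) : Qb) = ((σ • s : 𝔹) : Qb) - (s : Qb) := rfl
    rw [h2, h3, ← h1, ← hxs]
    ring
  have hmem : (σ x - x) * ((σ • s : 𝔹) : Qb) ∈ A.nonunits := by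
    rw [hkey]
    have h1 : x * ((σ • s - s : 𝔹) : Qb) ∈ A.nonunits := by
      rw [mul_comm]
      exact mul_mem_nonunits A hs2 hx
    rw [ValuationSubring.mem_nonunits_iff] at hb h1 ⊢
    calc A.valuation (((σ • b - b : 𝔹) : Qb) - x * ((σ • s - s : 𝔹) : Qb))
        ≤ max (A.valuation ((σ • b - b : 𝔹) : Qb)) (A.valuation (x * ((σ • s - s : 𝔹) : Qb))) :=
          Valuation.map_sub _ _ _
      _ < 1 := max_lt hb h1
  -- `σ s` is a unit of `A`
  have hval : A.valuation ((σ • s : 𝔹) : Qb) = 1 := by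
    have h1 : A.valuation ((σ • s : 𝔹) : Qb) ≤ 1 := (A.valuation_le_one_iff _).mpr hσsA
    rw [ValuationSubring.mem_nonunits_iff, not_lt] at hσsu
    exact le_antisymm h1 hσsu
  rw [ValuationSubring.mem_nonunits_iff] at hmem ⊢
  rwa [map_mul, hval, mul_one] at hmem

end Fermat.Agent.S13.G
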