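import Mathlib
import Fermat.Agent.S54.Frobenius

/-!
# S13, package G, leaf G3a (helper12 hedge): Galois correspondence for a normal subgroup
containing a finite-level fixing subgroup
-/

set_option autoImplicit false
set_option linter.style.haveILetI false

namespace Fermat.Agent.S13.G

local notation "Qb" => AlgebraicClosure ℚ
local notation "Γ" => (AlgebraicClosure ℚ ≃ₐ[ℚ] AlgebraicClosure ℚ)

theorem h12_isOpen_of_fixingSubgroup_le (H : Subgroup Γ) (L : IntermediateField ℚ Qb)
    [FiniteDimensional ℚ L] (hL : L.fixingSubgroup ≤ H) : IsOpen (H : Set Γ) :=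
  Subgroup.isOpen_mono hL (IntermediateField.fixingSubgroup_isOpen L)

theorem h12_fixingSubgroup_fixedField (H : Subgroup Γ) (L : IntermediateField ℚ Qb)
    [FiniteDimensional ℚ L] (hL : L.fixingSubgroup ≤ H) :
    (IntermediateField.fixedField H).fixingSubgroup = H := by
  haveI := Fermat.Agent.S54.isGalois_rat
  have hopen : IsOpen (H : Set Γ) := h12_isOpen_of_fixingSubgroup_le H L hL
  have hclosed : IsClosed (H : Set Γ) := Subgroup.isClosed_of_isOpen H hopen
  exact InfiniteGalois.fixingSubgroup_fixedField ⟨H, hclosed⟩

theorem h12_fixedField_props (H : Subgroup Γ) [hn : H.Normal] (L : IntermediateField ℚ Qb)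
    [FiniteDimensional ℚ L] (hL : L.fixingSubgroup ≤ H) :
    FiniteDimensional ℚ (IntermediateField.fixedField H) ∧
    IsGalois ℚ (IntermediateField.fixedField H) ∧
    (IntermediateField.fixedField H).fixingSubgroup = H := by
  haveI := Fermat.Agent.S54.isGalois_rat
  have hfix := h12_fixingSubgroup_fixedField H L hL
  refine ⟨?_, ?_, hfix⟩
  · have hopen : IsOpen ((IntermediateField.fixedField H).fixingSubgroup : Set Γ) := by
      rw [hfix]
      exact h12_isOpen_of_fixingSubgroup_le H L hL
    exact (InfiniteGalois.isOpen_iff_finite (IntermediateField.fixedField H)).mp hopen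
  · have hnorm : ((IntermediateField.fixedField H).fixingSubgroup).Normal := by
      rw [hfix]
      exact hn
    exact (InfiniteGalois.normal_iff_isGalois (IntermediateField.fixedField H)).mp hnorm

theorem h12_finiteDimensional_adjoin_of_finite (S : Set Qb) (hS : S.Finite) :
    FiniteDimensional ℚ (IntermediateField.adjoin ℚ S) := by
  haveI := Fermat.Agent.S54.isIntegral_rat
  haveI : Finite S := hS
  exact IntermediateField.finiteDimensional_adjoin fun x _ => Algebra.IsIntegral.isIntegral x

theorem h12_mem_fixingSubgroup_adjoin_iff (S : Set Qb) (σ : Γ) :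
    σ ∈ (IntermediateField.adjoin ℚ S).fixingSubgroup ↔ ∀ x ∈ S, σ x = x := by
  rw [IntermediateField.mem_fixingSubgroup_iff]
  constructor
  · intro h x hx
    exact h x (IntermediateField.subset_adjoin ℚ S hx)
  · intro h x hx
    have hle : IntermediateField.adjoin ℚ S ≤ IntermediateField.fixedField (Subgroup.zpowers σ) := by
      rw [IntermediateField.adjoin_le_iff]
      intro y hy
      rw [SetLike.mem_coe, IntermediateField.mem_fixedField_iff]
      intro g hg
      obtain ⟨n, rfl⟩ := Subgroup.mem_zpowers_iff.mp hg
      have hy' : σ • y = y := h y hy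
      have : (σ ^ n) • y = y := by
        have hmem : σ ∈ MulAction.stabilizer Γ y := hy'
        exact (MulAction.stabilizer Γ y).zpow_mem hmem n
      exact this
    have := hle hx
    rw [IntermediateField.mem_fixedField_iff] at this
    exact this σ (Subgroup.mem_zpowers σ)

end Fermat.Agent.S13.G
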