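import Mathlib
import Fermat.Prelude.Def_FLTPrelim_Ramification
import Fermat.Agent.S13.G.Defs
import Fermat.Agent.S54.Frobenius

/-!
# S13, package G: conditional assembly (helper12)

The Minkowski bridge, assembled from the three leaves `G1` (lift of inertia), `G2` (finite level
Minkowski) and `G3a` (Galois correspondence) taken as hypotheses.
-/

set_option autoImplicit false
set_option linter.style.haveILetI false

namespace Fermat.Agent.S13.G

local notation "Qb" => AlgebraicClosure ℚ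
local notation "Γ" => (AlgebraicClosure ℚ ≃ₐ[ℚ] AlgebraicClosure ℚ)
local notation "𝔹" => (integralClosure ℤ (AlgebraicClosure ℚ))

/-- Statement of leaf G1 in the shape (G1-F): an element of `Γ` which is in the finite-level
inertia of the normal subfield `F` agrees on `F` with an element of the inertia group of `A`. -/
def LiftStatementF : Prop :=
  ∀ (F : IntermediateField ℚ Qb) [Normal ℚ F] (A : ValuationSubring Qb) (q : ℕ), q.Prime →
    A.LiesOverPrime q → ∀ σ₀ : Γ,
    (∀ b : 𝔹, (b : Qb) ∈ F → ((σ₀ • b - b : 𝔹) : Qb) ∈ A.nonunits) →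
    ∃ σ ∈ A.inertiaSubgroupIn ℚ, ∀ x ∈ F, σ x = σ₀ x

/-- Statement of leaf G1. -/
def LiftStatement : Prop :=
  ∀ (A : ValuationSubring Qb) (q : ℕ), q.Prime → A.LiesOverPrime q →
    ∀ (M : IntermediateField ℚ Qb) [FiniteDimensional ℚ M] [IsGalois ℚ M]
      (τ : M ≃ₐ[ℚ] M), FinInertia A M τ →
      ∃ σ : Γ, σ ∈ A.inertiaSubgroupIn ℚ ∧ ∀ x : M, σ (x : Qb) = ((τ x : M) : Qb)

/-- Statement of leaf G2. -/
def MinkowskiStatement : Prop :=
  ∀ (M : IntermediateField ℚ Qb) [FiniteDimensional ℚ M] [IsGalois ℚ M],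
    (∀ q : ℕ, q.Prime → ∃ A : ValuationSubring Qb, A.LiesOverPrime q ∧
        ∀ τ : M ≃ₐ[ℚ] M, FinInertia A M τ → τ = 1) → M = ⊥

/-- Statement of leaf G3a. -/
def FixedFieldStatement : Prop :=
  ∀ (H : Subgroup Γ) [H.Normal] (L : IntermediateField ℚ Qb) [FiniteDimensional ℚ L],
    L.fixingSubgroup ≤ H →
    FiniteDimensional ℚ (IntermediateField.fixedField H) ∧
    IsGalois ℚ (IntermediateField.fixedField H) ∧
    (IntermediateField.fixedField H).fixingSubgroup = H

theorem h12_liftStatement_of_F (h : LiftStatementF) : LiftStatement := by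
  intro A q hq hA M _ _ τ hτ
  haveI : Normal ℚ Qb := (Fermat.Agent.S54.isGalois_rat).to_normal
  set σ₀ : Γ := τ.liftNormal Qb with hσ₀
  have hσ₀M : ∀ x : M, σ₀ (x : Qb) = ((τ x : M) : Qb) := fun x =>
    AlgEquiv.liftNormal_commutes τ Qb x
  obtain ⟨σ, hσ, hσF⟩ := h M A q hq hA σ₀ (by
    intro b hb
    have hint : IsIntegral ℤ (⟨(b : Qb), hb⟩ : M) := by
      have h1 : IsIntegral ℤ (algebraMap M Qb ⟨(b : Qb), hb⟩) := b.2
      exact (isIntegral_algebraMap_iff (FaithfulSMul.algebraMap_injective M Qb)).mp h1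
    have := hτ ⟨(b : Qb), hb⟩ hint
    rw [← hσ₀M] at this
    exact this)
  exact ⟨σ, hσ, fun x => by rw [hσF x x.2, hσ₀M]⟩

theorem h12_eq_top_of_exists_inertia_le_of (h1 : LiftStatement) (h2 : MinkowskiStatement)
    (h3 : FixedFieldStatement) (H : Subgroup Γ) [H.Normal] (L : IntermediateField ℚ Qb)
    [FiniteDimensional ℚ L] (hL : L.fixingSubgroup ≤ H)
    (hI : ∀ q : ℕ, q.Prime → ∃ A : ValuationSubring Qb, A.LiesOverPrime q ∧
      A.inertiaSubgroupIn ℚ ≤ H) : H = ⊤ := by
  obtain ⟨hfin, hgal, hfix⟩ := h3 H L hL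
  haveI := hfin
  haveI := hgal
  have hM : IntermediateField.fixedField H = ⊥ := by
    refine h2 (IntermediateField.fixedField H) fun q hq => ?_
    obtain ⟨A, hA, hAH⟩ := hI q hq
    refine ⟨A, hA, fun τ hτ => ?_⟩
    obtain ⟨σ, hσ, hστ⟩ := h1 A q hq hA (IntermediateField.fixedField H) τ hτ
    have hσH : σ ∈ (IntermediateField.fixedField H).fixingSubgroup := by
      rw [hfix]
      exact hAH hσ
    ext x
    rw [AlgEquiv.one_apply, ← hστ x]
    exact ((IntermediateField.mem_fixingSubgroup_iff _ σ).mp hσH) x x.2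
  rw [← hfix, hM]
  ext σ
  simp only [Subgroup.mem_top, iff_true]
  rw [IntermediateField.mem_fixingSubgroup_iff]
  intro x hx
  rw [IntermediateField.mem_bot] at hx
  obtain ⟨r, rfl⟩ := hx
  exact σ.commutes r

end Fermat.Agent.S13.G
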