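import Mathlib
import Fermat.Prelude.Def_FLTPrelim_Ramification
import Fermat.Agent.S54.Frobenius
import Fermat.Agent.S13.G.H12_Bridge
import Fermat.Agent.S13.G.H12_Glue

/-!
# S13, package G, leaf G1 (helper12 hedge): lifting finite-level inertia

`F ⊂ ℚ̄` normal over `ℚ`, `A` a valuation subring of `ℚ̄` over the prime `q`, `σ₀ ∈ Gal(ℚ̄/ℚ)`
acting trivially modulo `𝔪_A` on the algebraic integers of `F`.  Then `σ₀` agrees on `F` with an
element of the inertia group of `A`.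
-/

set_option autoImplicit false
set_option linter.style.haveILetI false

namespace Fermat.Agent.S13.G

open Fermat.Agent.S54
open scoped Pointwise

local notation "Qb" => AlgebraicClosure ℚ
local notation "Γ" => (AlgebraicClosure ℚ ≃ₐ[ℚ] AlgebraicClosure ℚ)
local notation "𝔹" => (integralClosure ℤ (AlgebraicClosure ℚ))

section setup

variable (F : IntermediateField ℚ Qb)

/-- The ring of algebraic integers fixed by `Gal(ℚ̄/F)`. -/
noncomputable abbrev h12A0 : Subalgebra ℤ 𝔹 := FixedPoints.subalgebra ℤ 𝔹 F.fixingSubgroup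

theorem h12_mem_A0_iff (b : 𝔹) : b ∈ h12A0 F ↔ (b : Qb) ∈ F := by
  haveI := isGalois_rat
  constructor
  · intro hb
    rw [← InfiniteGalois.fixedField_fixingSubgroup F, IntermediateField.mem_fixedField_iff]
    intro g hg
    exact congrArg Subtype.val (hb ⟨g, hg⟩)
  · intro hb g
    apply Subtype.ext
    exact (IntermediateField.mem_fixingSubgroup_iff F g.1).mp g.2 _ hb

instance h12_smulCommClass : SMulCommClass F.fixingSubgroup (h12A0 F) 𝔹 :=
  ⟨fun g a b => by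
    change g • ((a : 𝔹) * b) = (a : 𝔹) * (g • b)
    rw [smul_mul', a.2 g]⟩

instance h12_isInvariant : Algebra.IsInvariant (h12A0 F) 𝔹 F.fixingSubgroup :=
  ⟨fun b hb => ⟨⟨b, hb⟩, rfl⟩⟩

theorem h12_compactSpace : CompactSpace F.fixingSubgroup := by
  haveI := isGalois_rat
  haveI := compactSpace_gal
  exact isCompact_iff_compactSpace.mp (InfiniteGalois.fixingSubgroup_isClosed F).isCompact

theorem h12_totallyDisconnectedSpace : TotallyDisconnectedSpace F.fixingSubgroup := by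
  haveI := totallyDisconnectedSpace_gal
  exact Subtype.totallyDisconnectedSpace

theorem h12_continuousSMul : @ContinuousSMul F.fixingSubgroup 𝔹 _ _ ⊥ := by
  letI : TopologicalSpace 𝔹 := ⊥
  haveI : DiscreteTopology 𝔹 := ⟨rfl⟩
  have hΓ := continuousSMul_gal
  rw [continuousSMul_iff_stabilizer_isOpen] at hΓ ⊢
  intro b
  have : (MulAction.stabilizer F.fixingSubgroup b : Set F.fixingSubgroup) =
      Subtype.val ⁻¹' (MulAction.stabilizer Γ b : Set Γ) := by
    ext g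
    simp only [SetLike.mem_coe, MulAction.mem_stabilizer_iff, Set.mem_preimage]
    rfl
  rw [this]
  exact (hΓ b).preimage continuous_subtype_val

end setup

section main

variable (F : IntermediateField ℚ Qb) [Normal ℚ F]

omit [Normal ℚ F] in
theorem h12_coe_smul (g : Γ) (b : 𝔹) : ((g • b : 𝔹) : Qb) = g (b : Qb) := rfl

theorem h12_apply_mem (σ : Γ) {x : Qb} (hx : x ∈ F) : σ x ∈ F := by
  have := AlgEquiv.restrictNormal_commutes σ F ⟨x, hx⟩
  have h2 : σ x = ((σ.restrictNormal F ⟨x, hx⟩ : F) : Qb) := this.symm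
  rw [h2]
  exact (σ.restrictNormal F ⟨x, hx⟩).2

theorem h12_smul_mem_A0 (σ : Γ) {b : 𝔹} (hb : b ∈ h12A0 F) : σ • b ∈ h12A0 F := by
  rw [h12_mem_A0_iff] at hb ⊢
  exact h12_apply_mem F σ hb

omit [Normal ℚ F] in
theorem h12_inv_smul_mem {Q : Ideal 𝔹} {τ : Γ} (hτ : τ ∈ MulAction.stabilizer Γ Q) {x : 𝔹}
    (hx : x ∈ Q) : τ⁻¹ • x ∈ Q := by
  have hinv : τ⁻¹ ∈ MulAction.stabilizer Γ Q := Subgroup.inv_mem _ hτ
  rw [MulAction.mem_stabilizer_iff] at hinv
  have := Ideal.smul_mem_pointwise_smul τ⁻¹ x Q hx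
  rwa [hinv] at this

/-- The lift of inertia, shape (G1-F). -/
theorem h12_exists_inertia_restrict (A : ValuationSubring Qb) (q : ℕ) (hq : q.Prime)
    (hA : A.LiesOverPrime q) (σ₀ : Γ)
    (hσ₀ : ∀ b : 𝔹, (b : Qb) ∈ F → ((σ₀ • b - b : 𝔹) : Qb) ∈ A.nonunits) :
    ∃ σ ∈ A.inertiaSubgroupIn ℚ, ∀ x ∈ F, σ x = σ₀ x := by
  letI : TopologicalSpace 𝔹 := ⊥
  haveI : DiscreteTopology 𝔹 := ⟨rfl⟩
  haveI := h12_compactSpace F
  haveI := h12_totallyDisconnectedSpace F
  haveI := h12_continuousSMul F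
  -- reformulate the hypothesis
  have h0 : ∀ b : 𝔹, b ∈ h12A0 F → σ₀ • b - b ∈ primeOf A := fun b hb =>
    (mem_primeOf_iff A _).mpr (hσ₀ b ((h12_mem_A0_iff F b).mp hb))
  -- Step 1: the two primes have the same contraction
  have hunder : (σ₀ • primeOf A).under (h12A0 F) = (primeOf A).under (h12A0 F) := by
    ext a
    rw [Ideal.mem_comap, Ideal.mem_comap]
    change (a : 𝔹) ∈ σ₀ • primeOf A ↔ (a : 𝔹) ∈ primeOf A
    rw [Ideal.mem_pointwise_smul_iff_inv_smul_mem]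
    have ha' : σ₀⁻¹ • (a : 𝔹) ∈ h12A0 F := h12_smul_mem_A0 F σ₀⁻¹ a.2
    have h1 := h0 _ ha'
    rw [smul_inv_smul] at h1
    constructor
    · intro h
      have := Ideal.add_mem _ h1 h
      simpa using this
    · intro h
      have := Ideal.sub_mem _ h h1
      simpa using this
  haveI : (σ₀ • primeOf A).IsPrime := by
    rw [Ideal.pointwise_smul_eq_comap]
    exact Ideal.comap_isPrime _ _
  obtain ⟨h, hh⟩ := Algebra.IsInvariant.exists_smul_of_under_eq_of_profinite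
    (A := h12A0 F) (G := F.fixingSubgroup) (σ₀ • primeOf A) (primeOf A) hunder
  -- `hh : primeOf A = h • σ₀ • primeOf A`
  have hσ₁ : (h.1 * σ₀) ∈ MulAction.stabilizer Γ (primeOf A) := by
    rw [MulAction.mem_stabilizer_iff, mul_smul]
    exact hh.symm
  -- Step 2: `σ₁ = h σ₀` is trivial on the image of `A0`
  have h1 : ∀ b : 𝔹, b ∈ h12A0 F → (h.1 * σ₀) • b - b ∈ primeOf A := by
    intro b hb
    have hb' : σ₀ • b ∈ h12A0 F := h12_smul_mem_A0 F σ₀ hb
    have : (h.1 * σ₀) • b = σ₀ • b := by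
      rw [mul_smul]
      exact hb' h
    rw [this]
    exact h0 b hb
  -- Step 3: the induced automorphism of the residue ring, over `A0 ⧸ P`
  let P : Ideal (h12A0 F) := (primeOf A).under (h12A0 F)
  haveI : (primeOf A).LiesOver P := ⟨rfl⟩
  haveI : (primeOf A).LiesOver ((primeOf A).under ℤ) := ⟨rfl⟩
  let φ₀ : (𝔹 ⧸ primeOf A) ≃ₐ[ℤ ⧸ (primeOf A).under ℤ] (𝔹 ⧸ primeOf A) :=
    Ideal.Quotient.stabilizerHom (primeOf A) ((primeOf A).under ℤ) Γ ⟨h.1 * σ₀, hσ₁⟩
  have hφ₀ : ∀ b : 𝔹, φ₀ (Ideal.Quotient.mk (primeOf A) b) =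
      Ideal.Quotient.mk (primeOf A) ((h.1 * σ₀) • b) := fun b =>
    Ideal.Quotient.stabilizerHom_apply (primeOf A) ((primeOf A).under ℤ) Γ ⟨h.1 * σ₀, hσ₁⟩ b
  let φ : (𝔹 ⧸ primeOf A) ≃ₐ[h12A0 F ⧸ P] (𝔹 ⧸ primeOf A) :=
    AlgEquiv.ofRingEquiv (f := φ₀.toRingEquiv) (by
      intro r
      obtain ⟨a, rfl⟩ := Ideal.Quotient.mk_surjective r
      rw [Ideal.Quotient.algebraMap_mk_of_liesOver]
      change φ₀ (Ideal.Quotient.mk (primeOf A) (a : 𝔹)) = Ideal.Quotient.mk (primeOf A) (a : 𝔹)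
      rw [hφ₀, Ideal.Quotient.eq]
      exact h1 a a.2)
  obtain ⟨h', hh'⟩ := Ideal.Quotient.stabilizerHom_surjective_of_profinite
    (G := F.fixingSubgroup) P (primeOf A) φ
  have hh'b : ∀ b : 𝔹, (h'.1.1 : Γ) • b - (h.1 * σ₀) • b ∈ primeOf A := by
    intro b
    have e1 := Ideal.Quotient.stabilizerHom_apply (primeOf A) P F.fixingSubgroup h' b
    rw [hh'] at e1
    have e2 : φ (Ideal.Quotient.mk (primeOf A) b) =
        Ideal.Quotient.mk (primeOf A) ((h.1 * σ₀) • b) := hφ₀ b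
    rw [e2] at e1
    exact Ideal.Quotient.eq.mp e1.symm
  have hh's : (h'.1.1 : Γ) ∈ MulAction.stabilizer Γ (primeOf A) := by
    have := h'.2
    rw [MulAction.mem_stabilizer_iff] at this ⊢
    exact this
  -- Step 4: the element
  refine ⟨(h'.1.1 : Γ)⁻¹ * (h.1 * σ₀), ?_, ?_⟩
  · have hs : (h'.1.1 : Γ)⁻¹ * (h.1 * σ₀) ∈ MulAction.stabilizer Γ (primeOf A) :=
      Subgroup.mul_mem _ (Subgroup.inv_mem _ hh's) hσ₁
    refine mem_inertiaSubgroupIn_of_stabilizer A q hq hA _ hs fun b => ?_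
    have e : ((h'.1.1 : Γ)⁻¹ * (h.1 * σ₀)) • b - b =
        (h'.1.1 : Γ)⁻¹ • ((h.1 * σ₀) • b - (h'.1.1 : Γ) • b) := by
      rw [smul_sub, inv_smul_smul, mul_smul]
    rw [e]
    refine h12_inv_smul_mem hh's ?_
    have := hh'b b
    have h2 := (Ideal.neg_mem_iff (primeOf A)).mpr this
    simpa using h2
  · intro x hx
    have hx1 : σ₀ x ∈ F := h12_apply_mem F σ₀ hx
    have hx2 : h.1 (σ₀ x) = σ₀ x := (IntermediateField.mem_fixingSubgroup_iff F h.1).mp h.2 _ hx1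
    have hx3 : (h'.1.1 : Γ)⁻¹ (σ₀ x) = σ₀ x :=
      (IntermediateField.mem_fixingSubgroup_iff F _).mp (Subgroup.inv_mem _ h'.1.2) _ hx1
    rw [AlgEquiv.mul_apply, AlgEquiv.mul_apply, hx2, hx3]

end main

/-- Leaf G1 in the shape (G1-F). -/
theorem h12_liftStatementF : LiftStatementF := fun F _ A q hq hA σ₀ hσ₀ =>
  h12_exists_inertia_restrict F A q hq hA σ₀ hσ₀

/-- Leaf G1 in the shape of the interface (`FinInertia`). -/
theorem h12_liftStatement : LiftStatement := h12_liftStatement_of_F h12_liftStatementF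

/-- Leaf G1, explicit form. -/
theorem h12_exists_inertia_lift (A : ValuationSubring Qb) (q : ℕ) (hq : q.Prime)
    (hA : A.LiesOverPrime q)
    (M : IntermediateField ℚ Qb) [FiniteDimensional ℚ M] [IsGalois ℚ M]
    (τ : M ≃ₐ[ℚ] M) (hτ : FinInertia A M τ) :
    ∃ σ : Γ, σ ∈ A.inertiaSubgroupIn ℚ ∧ ∀ x : M, σ (x : Qb) = ((τ x : M) : Qb) :=
  h12_liftStatement A q hq hA M τ hτ

end Fermat.Agent.S13.G
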