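import Mathlib
import Fermat.Agent.S13.G.Defs

/-!
# S13, package G, leaf [G2] (helper18, hedge): finite level / Minkowski

A finite Galois extension `M ⊂ ℚ̄` of `ℚ` such that for every prime `q` there is a valuation
subring `A` of `ℚ̄` over `q` at which the finite-level inertia group of `M` is trivial, is `ℚ`.
(Mathlib: every number field `≠ ℚ` which is Galois over `ℚ` has a prime `q` such that every
prime above `q` is ramified; the order of the inertia group is the ramification index.)
-/

set_option autoImplicit false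
set_option linter.style.haveILetI false

namespace Fermat.Agent.S13.G

open NumberField

/-- Algebraic integers of `ℚ̄` lie in every valuation subring. -/
theorem h18_mem_of_isIntegral (A : ValuationSubring (AlgebraicClosure ℚ))
    {x : AlgebraicClosure ℚ} (hx : IsIntegral ℤ x) : x ∈ A := by
  have hb' : IsIntegral A x := hx.tower_top
  obtain ⟨y, hy⟩ := IsIntegrallyClosed.isIntegral_iff.mp hb'
  rw [← hy]
  exact y.2

/-- The coercion of an algebraic integer of `M` to `ℚ̄` is integral. -/
theorem h18_isIntegral_coe (M : IntermediateField ℚ (AlgebraicClosure ℚ)) (x : 𝓞 M) :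
    IsIntegral ℤ (((x : M) : AlgebraicClosure ℚ)) := by
  have h := RingOfIntegers.isIntegral_coe x
  exact h.map (IsScalarTower.toAlgHom ℤ M (AlgebraicClosure ℚ))

/-- The ring homomorphism from the ring of integers of `M` to a valuation subring of `ℚ̄`. -/
noncomputable def h18_toA (A : ValuationSubring (AlgebraicClosure ℚ))
    (M : IntermediateField ℚ (AlgebraicClosure ℚ)) : 𝓞 M →+* A where
  toFun x := ⟨((x : M) : AlgebraicClosure ℚ), h18_mem_of_isIntegral A (h18_isIntegral_coe M x)⟩
  map_one' := by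
    apply Subtype.ext
    simp
  map_mul' x y := by
    apply Subtype.ext
    simp
  map_zero' := by
    apply Subtype.ext
    simp
  map_add' x y := by
    apply Subtype.ext
    simp

/-- The prime of `𝓞 M` cut out by a valuation subring of `ℚ̄`. -/
noncomputable def h18_primeOf (A : ValuationSubring (AlgebraicClosure ℚ))
    (M : IntermediateField ℚ (AlgebraicClosure ℚ)) : Ideal (𝓞 M) :=
  (IsLocalRing.maximalIdeal A).comap (h18_toA A M)

instance h18_primeOf_isPrime (A : ValuationSubring (AlgebraicClosure ℚ))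
    (M : IntermediateField ℚ (AlgebraicClosure ℚ)) : (h18_primeOf A M).IsPrime :=
  Ideal.comap_isPrime _ _

theorem h18_mem_primeOf_iff (A : ValuationSubring (AlgebraicClosure ℚ))
    (M : IntermediateField ℚ (AlgebraicClosure ℚ)) (x : 𝓞 M) :
    x ∈ h18_primeOf A M ↔ ((x : M) : AlgebraicClosure ℚ) ∈ A.nonunits := by
  rw [h18_primeOf, Ideal.mem_comap, ← ValuationSubring.coe_mem_nonunits_iff]
  rfl

theorem h18_natCast_mem_primeOf (A : ValuationSubring (AlgebraicClosure ℚ))
    (M : IntermediateField ℚ (AlgebraicClosure ℚ)) (q : ℕ) (hA : A.LiesOverPrime q) :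
    (q : 𝓞 M) ∈ h18_primeOf A M := by
  rw [h18_mem_primeOf_iff]
  have : (((q : 𝓞 M) : M) : AlgebraicClosure ℚ) = (q : AlgebraicClosure ℚ) := by simp
  rw [this]
  exact hA

/-- **[G2]** (hedge) A finite Galois subfield of `ℚ̄` with trivial finite-level inertia at one
valuation subring over each prime is `ℚ`. -/
theorem h18_eq_bot_of_finInertia_trivial (M : IntermediateField ℚ (AlgebraicClosure ℚ))
    [FiniteDimensional ℚ M] [IsGalois ℚ M]
    (h : ∀ q : ℕ, q.Prime → ∃ A : ValuationSubring (AlgebraicClosure ℚ), A.LiesOverPrime q ∧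
      ∀ τ : M ≃ₐ[ℚ] M, FinInertia A M τ → τ = 1) : M = ⊥ := by
  haveI : NumberField M := { to_charZero := inferInstance, to_finiteDimensional := inferInstance }
  by_contra hM
  have hfin : 1 < Module.finrank ℚ M := by
    have h1 : Module.finrank ℚ M ≠ 1 :=
      fun h1 => hM (IntermediateField.finrank_eq_one_iff.mp h1)
    have h0 : 0 < Module.finrank ℚ M := Module.finrank_pos
    omega
  obtain ⟨q, hq, hram⟩ :=
    NumberField.exists_not_isUnramifiedAt_int_of_isGalois (K := M) (𝒪 := 𝓞 M) hfin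
  obtain ⟨A, hA, htriv⟩ := h q hq
  have hqP : ((q : ℕ) : 𝓞 M) ∈ h18_primeOf A M := h18_natCast_mem_primeOf A M q hA
  apply hram (h18_primeOf A M) inferInstance hqP
  letI : MulSemiringAction Gal(M/ℚ) (𝓞 M) := IsIntegralClosure.MulSemiringAction ℤ ℚ M (𝓞 M)
  haveI := IsGaloisGroup.of_isFractionRing Gal(M/ℚ) ℤ (𝓞 M) ℚ M
  have hbot : (h18_primeOf A M).inertia Gal(M/ℚ) = ⊥ := by
    rw [eq_bot_iff]
    intro σ hσ
    rw [Subgroup.mem_bot]
    apply htriv σ
    intro x hx
    obtain ⟨x', hx'⟩ : ∃ x' : 𝓞 M, ((x' : 𝓞 M) : M) = x :=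
      ⟨IsIntegralClosure.mk' (𝓞 M) x hx, IsIntegralClosure.algebraMap_mk' (𝓞 M) x hx⟩
    have hmem : σ • x' - x' ∈ h18_primeOf A M :=
      (Submodule.mem_toAddSubgroup (p := h18_primeOf A M)).mp (hσ x')
    rw [h18_mem_primeOf_iff] at hmem
    have hcoe : (((σ • x' : 𝓞 M) : M)) = σ (x' : M) :=
      algebraMap_galRestrict_apply ℤ σ x'
    have hsub : (((σ • x' - x' : 𝓞 M) : M) : AlgebraicClosure ℚ) =
        ((σ x : M) : AlgebraicClosure ℚ) - (x : AlgebraicClosure ℚ) := by
      have h1 : ((σ • x' - x' : 𝓞 M) : M) = ((σ • x' : 𝓞 M) : M) - ((x' : 𝓞 M) : M) :=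
        map_sub (algebraMap (𝓞 M) M) _ _
      rw [h1, hcoe, hx']
      rfl
    rw [hsub] at hmem
    exact hmem
  have hcard : Nat.card ((h18_primeOf A M).inertia Gal(M/ℚ)) = 1 := by
    rw [hbot]
    exact Subgroup.card_bot
  rw [← Ideal.ramificationIdx_eq_one_iff,
    ← Ideal.ramificationIdxIn_eq_ramificationIdx ((h18_primeOf A M).under ℤ) _ Gal(M/ℚ),
    ← Ideal.card_inertia_eq_ramificationIdxIn (G := Gal(M/ℚ)) ((h18_primeOf A M).under ℤ)
      (h18_primeOf A M)]
  exact hcard

end Fermat.Agent.S13.G
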